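import Fermat.Agent.Pic.Cut.Degree
import Fermat.Agent.Pic.Power.Basic
import Fermat.Agent.Pic.Props.Basic
import Fermat.Agent.Pic.Props.Closed
import Fermat.Agent.Pic.Props.Difference
import Fermat.Agent.Pic.Repr.Represent

/-!
# The Jacobian from smooth charts and a surjection from a power of the curve

This is the reduction of the existence of the Jacobian to smooth charts of the degree zero functor
and to the surjectivity on rational points of a map from a power of the curve.
-/

noncomputable section

universe u

open CategoryTheory CategoryTheory.Limits AlgebraicGeometry AlgebraicGeometry.RelPicard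
  NeronModelInfra GoodReductionJacobian

namespace Fermat.Agent.Pic

variable {k : Type u} [Field k] [IsAlgClosed k] {C : Scheme.{u}} [IsIntegral C]
  {c : C ⟶ Spec (CommRingCat.of k)} [IsProper c] [SmoothOfRelativeDimension 1 c]
  (p : Parameter c) {ε : SchemeHomOver (𝟙 (Spec (CommRingCat.of k))) c}

/-- Smooth charts of degree zero, and a map from a power of the curve hitting every rational point
of any scheme representing it, give the Jacobian. -/
theorem Parameter.exists_jacobian (K : Repr.Charts (p.degZero ε)) (hK : ∀ i, Smooth (K.w i))
    (hπ : ∀ D : RelativePic0Designation k c, RepresentsRelSubPic c ε (p.degZero ε) D →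
      ∃ (n : ℕ) (π : SchemeHomOver (Power.powHom c n) D.toBase),
        ∀ g : SchemeHomOver (𝟙 (Spec (CommRingCat.of k))) D.toBase,
          ∃ g' : Spec (CommRingCat.of k) ⟶ Power.Pow c n, g' ≫ π.1 = g.1) :
    ∃ D : RelativePic0Designation k c,
      Nonempty (RepresentsRelSubPic c ε (algEquivZeroCut c ε) D) ∧
        Smooth D.toBase ∧ IsProper D.toBase ∧ GeometricallyConnected D.toBase := by
  obtain ⟨D, h, e, he, hcov, -⟩ := Repr.exists_representsRelSubPic K (hasTrivialFunctions p)
    (p.isZariskiLocal_degZero ε)
  have hsm : Smooth D.toBase :=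
    Props.smooth_of_charts D.toBase (fun i => (e i).1) hcov fun i => by rw [(e i).2]; exact hK i
  obtain ⟨n, π, hπs⟩ := hπ D h
  have : Smooth c := SmoothOfRelativeDimension.smooth 1 c
  have := Power.isIntegral_pow c n
  have := Power.geometricallyIntegral_powHom c n
  have hpts : ∀ g : Spec (CommRingCat.of k) ⟶ D.P, g ≫ D.toBase = 𝟙 _ →
      ∃ g' : Spec (CommRingCat.of k) ⟶ Power.Pow c n, g' ≫ π.1 = g := fun g hg => hπs ⟨g, hg⟩
  have hint : GeometricallyIntegral D.toBase :=
    Props.geometricallyIntegral_of_points D.toBase π.1 hpts
  have hconn := Power.geometricallyConnected_of_geometricallyIntegral D.toBase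
  have hsep := p.isSeparated_of_geometricallyConnected h
  have hπ2 : π.1 ≫ D.toBase = Power.powHom c n := π.2
  have : UniversallyClosed (π.1 ≫ D.toBase) := by
    rw [hπ2]
    infer_instance
  have := Props.surjective_of_points D.toBase π.1 hpts
  exact ⟨D, ⟨p.representsAlgEquivZeroCut h⟩, hsm, Props.isProper_of_surjective D.toBase π.1,
    hconn⟩

end Fermat.Agent.Pic
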